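/-
S55 / 41b-CONE (helper41): the cone model `H2c S M` ("compactly supported" degree-2 cohomology)
on the Prelude level-constant cochains, and the exact sequence
  (⊕_{q ∈ S} level 1-cocycles of G_q)  --δ-->  H2c S M  --j-->  continuousH2S S M  --loc-->  ∏_q H²(G_q, M)
with `range j = sha₂ S M` (p odd) and `ker j = range δ`.
-/
import Mathlib
import Fermat.Prelude.Def_GroupCohomology_ContinuousUnramified
import Fermat.Agent.S55.ProfinLocal31.Sha

set_option autoImplicit false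

open CategoryTheory groupCohomology ExtCitation

noncomputable section

namespace Fermat.Agent.S55.Cone41

/-- The absolute Galois group of `ℚ`. -/
abbrev GQ : Type := AlgebraicClosure ℚ ≃ₐ[ℚ] AlgebraicClosure ℚ

variable {k : Type} [CommRing k] (S : Finset Nat.Primes) (M : Rep k GQ)

/-- Restriction of 1-cochains to the local group at `q`. -/
def res₁ (q : Nat.Primes) :
    (GQ → M) →ₗ[k] (primeLocalGaloisGroup q → Rep.res (primeLocalToGlobal q) M) :=
  cochainsPullPush₁ (primeLocalToGlobal q) (LinearMap.id : M →ₗ[k] Rep.res (primeLocalToGlobal q) M)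

/-- Restriction of 2-cochains to the local group at `q`. -/
def res₂ (q : Nat.Primes) :
    (GQ × GQ → M) →ₗ[k]
      (primeLocalGaloisGroup q × primeLocalGaloisGroup q → Rep.res (primeLocalToGlobal q) M) :=
  cochainsPullPush₂ (primeLocalToGlobal q) (LinearMap.id : M →ₗ[k] Rep.res (primeLocalToGlobal q) M)

@[simp] lemma res₁_apply (q : Nat.Primes) (x : GQ → M) (g : primeLocalGaloisGroup q) :
    res₁ M q x g = x (primeLocalToGlobal q g) := rfl

@[simp] lemma res₂_apply (q : Nat.Primes) (x : GQ × GQ → M)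
    (g : primeLocalGaloisGroup q × primeLocalGaloisGroup q) :
    res₂ M q x g = x (primeLocalToGlobal q g.1, primeLocalToGlobal q g.2) := rfl

lemma res₂_d₁₂ (q : Nat.Primes) (x : GQ → M) :
    res₂ M q ((d₁₂ M).hom x) = (d₁₂ (Rep.res (primeLocalToGlobal q) M)).hom (res₁ M q x) :=
  cochainsPullPush₂_d₁₂ (primeLocalToGlobal q) _ (fun _ _ => rfl) x

/-- The ambient module of cone 2-cochains: a global 2-cochain and a local 1-cochain at each `q ∈ S`. -/
abbrev Amb : Type :=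
  (GQ × GQ → M) × (∀ q : ↥S, primeLocalGaloisGroup q.1 → Rep.res (primeLocalToGlobal q.1) M)

/-- Cone 2-cocycles: `(a, (b_q))` with `a` an `S`-level 2-cocycle, `b_q` level-constant local
1-cochains, and `res_q a = d b_q`. -/
def Z2c : Submodule k (Amb S M) where
  carrier := {x | x.1 ∈ levelCocyclesS₂ S M ∧
    ∀ q : ↥S, x.2 q ∈ levelCochains₁ (primeLocalToGlobal q.1) (Rep.res (primeLocalToGlobal q.1) M) ∧
      res₂ M q.1 x.1 = (d₁₂ (Rep.res (primeLocalToGlobal q.1) M)).hom (x.2 q)}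
  add_mem' := by
    rintro x y ⟨hx1, hx2⟩ ⟨hy1, hy2⟩
    refine ⟨Submodule.add_mem _ hx1 hy1, fun q => ⟨Submodule.add_mem _ (hx2 q).1 (hy2 q).1, ?_⟩⟩
    simp only [Prod.fst_add, Prod.snd_add, Pi.add_apply, map_add, (hx2 q).2, (hy2 q).2]
  zero_mem' := ⟨Submodule.zero_mem _, fun q => ⟨Submodule.zero_mem _, by simp⟩⟩
  smul_mem' := by
    rintro c x ⟨hx1, hx2⟩
    refine ⟨Submodule.smul_mem _ c hx1, fun q => ⟨Submodule.smul_mem _ c (hx2 q).1, ?_⟩⟩
    simp only [Prod.smul_fst, Prod.smul_snd, Pi.smul_apply, map_smul, (hx2 q).2]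

lemma mem_Z2c_iff (x : Amb S M) : x ∈ Z2c S M ↔ x.1 ∈ levelCocyclesS₂ S M ∧
    ∀ q : ↥S, x.2 q ∈ levelCochains₁ (primeLocalToGlobal q.1) (Rep.res (primeLocalToGlobal q.1) M) ∧
      res₂ M q.1 x.1 = (d₁₂ (Rep.res (primeLocalToGlobal q.1) M)).hom (x.2 q) := Iff.rfl

/-- The cone differential `(x, (y_q)) ↦ (d x, (res_q x - d y_q))` on all cochains. -/
def dCone : ((GQ → M) × (↥S → M)) →ₗ[k] Amb S M where
  toFun x := ((d₁₂ M).hom x.1,
    fun q => res₁ M q.1 x.1 - (d₀₁ (Rep.res (primeLocalToGlobal q.1) M)).hom (x.2 q))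
  map_add' x y := by
    ext1
    · simp
    · funext q; simp only [Prod.fst_add, Prod.snd_add, Pi.add_apply, map_add]; abel
  map_smul' c x := by
    ext1
    · simp
    · funext q
      simp only [Prod.smul_fst, Prod.smul_snd, Pi.smul_apply, map_smul, RingHom.id_apply, smul_sub]

/-- Cone 2-coboundaries: images under `dCone` of pairs with `x` an `S`-level 1-cochain. -/
def B2c : Submodule k (Amb S M) :=
  ((levelCochainsS₁ S M).prod ⊤).map (dCone S M)

lemma mem_B2c_iff (z : Amb S M) : z ∈ B2c S M ↔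
    ∃ (x : GQ → M) (y : ↥S → M), IsLevelConstantS₁ S x ∧ dCone S M (x, y) = z := by
  simp only [B2c, Submodule.mem_map, Submodule.mem_prod, Submodule.mem_top, and_true, Prod.exists,
    mem_levelCochainsS₁_iff]

/-- **The cone cohomology group `H²_c(G_S, M)`.** -/
abbrev H2c : Type := ↥(Z2c S M) ⧸ (B2c S M).comap (Z2c S M).subtype

abbrev H2cπ : ↥(Z2c S M) →ₗ[k] H2c S M := Submodule.mkQ _

lemma H2cπ_eq_zero_iff (z : ↥(Z2c S M)) : H2cπ S M z = 0 ↔ (z : Amb S M) ∈ B2c S M := by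
  simp [Submodule.Quotient.mk_eq_zero, Submodule.mem_comap]


/-! ### The maps `j` and `δ` -/

/-- The forgetful map on cocycles `(a, b) ↦ a`. -/
def jZ : ↥(Z2c S M) →ₗ[k] ↥(levelCocyclesS₂ S M) where
  toFun z := ⟨z.1.1, z.2.1⟩
  map_add' _ _ := rfl
  map_smul' _ _ := rfl

@[simp] lemma coe_jZ (z : ↥(Z2c S M)) : ((jZ S M z : ↥(levelCocyclesS₂ S M)) : GQ × GQ → M) = z.1.1 :=
  rfl

/-- `j : H²_c(G_S, M) → H²(G_S, M)`, `[(a, b)] ↦ [a]`. -/
def j : H2c S M →ₗ[k] continuousH2S S M :=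
  Submodule.mapQ _ _ (jZ S M) (by
    rintro z hz
    simp only [Submodule.mem_comap, Submodule.subtype_apply] at hz ⊢
    obtain ⟨x, y, hx, h⟩ := (mem_B2c_iff S M _).1 hz
    exact (mem_levelCoboundariesS₂_iff S M _).2 ⟨x, hx, congrArg Prod.fst h⟩)

@[simp] lemma j_mk (z : ↥(Z2c S M)) : j S M (H2cπ S M z) = continuousH2Sπ S M (jZ S M z) := rfl

/-- The local level-constant 1-cocycles at the places of `S`. -/
abbrev Z1loc : Type :=
  ∀ q : ↥S, ↥(levelCocycles₁ (primeLocalToGlobal q.1) (Rep.res (primeLocalToGlobal q.1) M))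

/-- `δ` on cocycles: `(b_q) ↦ (0, (b_q))`. -/
def δZ : Z1loc S M →ₗ[k] ↥(Z2c S M) where
  toFun b := ⟨(0, fun q => ((b q).1 : primeLocalGaloisGroup q.1 → Rep.res (primeLocalToGlobal q.1) M)),
    Submodule.zero_mem _, fun q => ⟨(b q).2, by
      rw [map_zero]
      exact ((b q).1.2 : (d₁₂ _).hom ((b q).1 : primeLocalGaloisGroup q.1 → _) = 0).symm⟩⟩
  map_add' b b' := by
    apply Subtype.ext
    ext1
    · simp
    · rfl
  map_smul' c b := by
    apply Subtype.ext
    ext1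
    · simp
    · rfl

@[simp] lemma coe_δZ_fst (b : Z1loc S M) : ((δZ S M b : ↥(Z2c S M)) : Amb S M).1 = 0 := rfl

@[simp] lemma coe_δZ_snd (b : Z1loc S M) (q : ↥S) :
    ((δZ S M b : ↥(Z2c S M)) : Amb S M).2 q = ((b q).1 : primeLocalGaloisGroup q.1 → _) := rfl

/-- `δ : ∏_q Z¹_level(G_q, M) → H²_c(G_S, M)`. -/
def δ : Z1loc S M →ₗ[k] H2c S M := H2cπ S M ∘ₗ δZ S M

lemma j_comp_δ : j S M ∘ₗ δ S M = 0 := by
  ext b
  simp only [LinearMap.coe_comp, Function.comp_apply, δ, j_mk, LinearMap.zero_apply]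
  rw [continuousH2Sπ_eq_zero_iff]
  simp only [coe_jZ, coe_δZ_fst]
  exact Submodule.zero_mem _

/-- **Exactness at `H²_c`**: `ker j = range δ`. -/
theorem ker_j : LinearMap.ker (j S M) = LinearMap.range (δ S M) := by
  apply le_antisymm
  · intro v hv
    obtain ⟨z, rfl⟩ := Submodule.mkQ_surjective _ v
    rw [LinearMap.mem_ker] at hv
    change continuousH2Sπ S M (jZ S M z) = 0 at hv
    rw [continuousH2Sπ_eq_zero_iff, coe_jZ] at hv
    obtain ⟨x, hx, hxa⟩ := (mem_levelCoboundariesS₂_iff S M _).1 hv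
    -- the local cocycles `b_q - res_q x`
    have hz := z.2
    rw [mem_Z2c_iff] at hz
    have hcoc : ∀ q : ↥S, (z.1.2 q - res₁ M q.1 x) ∈
        cocycles₁ (Rep.res (primeLocalToGlobal q.1) M) := by
      intro q
      change (d₁₂ _).hom _ = 0
      rw [map_sub, ← (hz.2 q).2, ← res₂_d₁₂, hxa, sub_self]
    have hlev : ∀ q : ↥S, IsLevelConstant₁ (primeLocalToGlobal q.1) (z.1.2 q - res₁ M q.1 x) := by
      intro q
      have h1 : res₁ M q.1 x ∈ levelCochains₁ (primeLocalToGlobal q.1)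
          (Rep.res (primeLocalToGlobal q.1) M) :=
        cochainsPullPush₁_mem_levelCochains₁ (rH := MonoidHom.id _) (primeLocalToGlobal q.1)
          (fun _ => rfl) _ (hx.isLevelConstant₁ : x ∈ levelCochains₁ (MonoidHom.id _) M)
      exact Submodule.sub_mem _ (hz.2 q).1 h1
    let b : Z1loc S M := fun q => ⟨⟨_, hcoc q⟩, hlev q⟩
    refine ⟨b, ?_⟩
    change H2cπ S M (δZ S M b) = H2cπ S M z
    rw [← sub_eq_zero, ← map_sub, H2cπ_eq_zero_iff, mem_B2c_iff]
    refine ⟨-x, 0, ?_, ?_⟩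
    · exact (levelCochainsS₁ S M).neg_mem hx
    · ext1
      · simp only [dCone, LinearMap.coe_mk, AddHom.coe_mk, map_neg, hxa]
        simp
      · funext q
        simp only [dCone, LinearMap.coe_mk, AddHom.coe_mk, map_neg, Pi.zero_apply, map_zero,
          sub_zero]
        change -(res₁ M q.1 x) = (z.1.2 q - res₁ M q.1 x) - z.1.2 q
        abel
  · rintro _ ⟨b, rfl⟩
    exact LinearMap.congr_fun (j_comp_δ S M) b


/-! ### `range j` is the kernel of localisation at the finite places of `S` -/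

lemma locRes₂S_mk_eq_zero_iff (q : Nat.Primes) (a : ↥(levelCocyclesS₂ S M)) :
    locRes₂S S M (primeLocalToGlobal q) (continuousH2Sπ S M a) = 0 ↔
      ∃ b : primeLocalGaloisGroup q → Rep.res (primeLocalToGlobal q) M,
        IsLevelConstant₁ (primeLocalToGlobal q) b ∧
          (d₁₂ (Rep.res (primeLocalToGlobal q) M)).hom b = res₂ M q a := by
  have h : locRes₂S S M (primeLocalToGlobal q) (continuousH2Sπ S M a) =
      continuousH2π (primeLocalToGlobal q) (Rep.res (primeLocalToGlobal q) M)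
        (levelCocycles₂Map (rH := MonoidHom.id _) (primeLocalToGlobal q) (fun _ => rfl)
          (LinearMap.id : M →ₗ[k] Rep.res (primeLocalToGlobal q) M) (fun _ _ => rfl)
          (levelCocyclesS₂ToLevelCocycles₂ S M a)) := rfl
  rw [h, continuousH2π_eq_zero_iff, mem_levelCoboundaries₂_iff]
  rfl

/-- A class of `H²(G_S, M)` is in the range of `j` iff it is locally trivial at every `q ∈ S`. -/
theorem mem_range_j_iff (x : continuousH2S S M) :
    x ∈ LinearMap.range (j S M) ↔ ∀ q : ↥S, locRes₂S S M (primeLocalToGlobal q.1) x = 0 := by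
  obtain ⟨a, rfl⟩ := Submodule.mkQ_surjective _ x
  constructor
  · rintro ⟨v, hv⟩ q
    obtain ⟨z, rfl⟩ := Submodule.mkQ_surjective _ v
    change continuousH2Sπ S M (jZ S M z) = continuousH2Sπ S M a at hv
    rw [← hv, locRes₂S_mk_eq_zero_iff]
    have hz := z.2
    rw [mem_Z2c_iff] at hz
    exact ⟨z.1.2 q, (hz.2 q).1, (hz.2 q).2.symm⟩
  · intro h
    have h' : ∀ q : ↥S, ∃ b : primeLocalGaloisGroup q.1 → Rep.res (primeLocalToGlobal q.1) M,
        IsLevelConstant₁ (primeLocalToGlobal q.1) b ∧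
          (d₁₂ (Rep.res (primeLocalToGlobal q.1) M)).hom b = res₂ M q.1 a := fun q =>
      (locRes₂S_mk_eq_zero_iff S M q.1 a).1 (h q)
    choose b hb1 hb2 using h'
    refine ⟨H2cπ S M ⟨((a : GQ × GQ → M), b), a.2, fun q => ⟨hb1 q, (hb2 q).symm⟩⟩, ?_⟩
    rfl

/-- **`range j = Ш²`** for `p` odd. -/
theorem range_j_eq_sha₂ {p : ℕ} [Fact p.Prime] (hp2 : p ≠ 2) (S : Finset Nat.Primes)
    (M : Rep (ZMod p) GQ) : LinearMap.range (j S M) = sha₂ S M := by
  ext x
  rw [mem_range_j_iff, ProfinLocal31.Sha.mem_sha₂_iff S hp2]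

end Fermat.Agent.S55.Cone41
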