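/-
S55 / 41b-CONE (helper41), part 2: `δ` descends to local cohomology classes, the localisation
maps `locH q : H¹(G_S, A) → H¹(G_q, A)` on the Prelude carriers, and `sha₁` as their common kernel.
-/
import Fermat.Agent.S55.Cone41.Basic

set_option autoImplicit false

open CategoryTheory groupCohomology ExtCitation

noncomputable section

namespace Fermat.Agent.S55.Cone41

section generic

variable {k : Type} [CommRing k] {H : Type} [Group H] (r : H →* GQ) (N : Rep k H)

/-- The class of a level-constant 1-cocycle in `continuousH1 r N`. -/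
def toH1 : ↥(levelCocycles₁ r N) →ₗ[k] ↥(continuousH1 r N) :=
  LinearMap.codRestrict _ ((H1π N).hom ∘ₗ (levelCocycles₁ r N).subtype)
    (fun c => H1π_mem_continuousH1 r N c.2)

@[simp] lemma coe_toH1 (c : ↥(levelCocycles₁ r N)) :
    ((toH1 r N c : ↥(continuousH1 r N)) : H1 N) = (H1π N).hom c.1 := rfl

lemma toH1_surjective : Function.Surjective (toH1 r N) := by
  rintro ⟨x, hx⟩
  obtain ⟨c, hc, rfl⟩ := (mem_continuousH1_iff r N x).1 hx
  exact ⟨⟨c, hc⟩, rfl⟩

lemma toH1_eq_zero_iff (c : ↥(levelCocycles₁ r N)) :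
    toH1 r N c = 0 ↔ ∃ y : N, (d₀₁ N).hom y = (c.1 : H → N) := by
  rw [← Subtype.coe_inj, coe_toH1]
  change (H1π N) c.1 = 0 ↔ _
  rw [H1π_eq_zero_iff]
  rfl

end generic

variable {k : Type} [CommRing k] (S : Finset Nat.Primes) (M : Rep k GQ)

/-- The product of the local continuous `H¹` at the places of `S` (Prelude carriers). -/
abbrev H1loc : Type :=
  ∀ q : ↥S, ↥(continuousH1 (primeLocalToGlobal q.1) (Rep.res (primeLocalToGlobal q.1) M))

/-- Local cocycles to local classes, at all places of `S`. -/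
def toH1loc : Z1loc S M →ₗ[k] H1loc S M :=
  LinearMap.pi fun q => toH1 (primeLocalToGlobal q.1) (Rep.res (primeLocalToGlobal q.1) M) ∘ₗ
    LinearMap.proj q

@[simp] lemma toH1loc_apply (b : Z1loc S M) (q : ↥S) :
    toH1loc S M b q = toH1 (primeLocalToGlobal q.1) (Rep.res (primeLocalToGlobal q.1) M) (b q) := rfl

lemma toH1loc_surjective : Function.Surjective (toH1loc S M) := by
  intro x
  exact ⟨fun q => (toH1_surjective (primeLocalToGlobal q.1)
      (Rep.res (primeLocalToGlobal q.1) M) (x q)).choose,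
    funext fun q => (toH1_surjective (primeLocalToGlobal q.1)
      (Rep.res (primeLocalToGlobal q.1) M) (x q)).choose_spec⟩

lemma ker_toH1loc_le : LinearMap.ker (toH1loc S M) ≤ LinearMap.ker (δ S M) := by
  intro b hb
  rw [LinearMap.mem_ker] at hb ⊢
  have h : ∀ q : ↥S, ∃ y : Rep.res (primeLocalToGlobal q.1) M,
      (d₀₁ (Rep.res (primeLocalToGlobal q.1) M)).hom y = ((b q).1 : primeLocalGaloisGroup q.1 → _) :=
    fun q => (toH1_eq_zero_iff _ _ (b q)).1 (congrFun hb q)
  choose y hy using h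
  change H2cπ S M (δZ S M b) = 0
  rw [H2cπ_eq_zero_iff, mem_B2c_iff]
  refine ⟨0, fun q => -(y q), isLevelConstantS₁_const S (0 : M), ?_⟩
  ext1
  · simp [dCone]
  · funext q
    simp only [dCone, LinearMap.coe_mk, AddHom.coe_mk, map_zero, map_neg, zero_sub, neg_neg, hy]
    rfl

lemma δ_eq_of_toH1loc_eq {b b' : Z1loc S M} (h : toH1loc S M b = toH1loc S M b') :
    δ S M b = δ S M b' := by
  have h0 : toH1loc S M (b - b') = 0 := by
    have h1 := map_sub (toH1loc S M) b b'
    rw [h, sub_self] at h1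
    exact h1
  have h2 : δ S M (b - b') = 0 := ker_toH1loc_le S M h0
  have h3 := map_sub (δ S M) b b'
  rw [h2] at h3
  exact (sub_eq_zero.1 h3.symm)

/-- **`δ` on classes**: `∏_q H¹(G_q, M) → H²_c(G_S, M)`. -/
def δH : H1loc S M →ₗ[k] H2c S M where
  toFun x := δ S M (Function.surjInv (toH1loc_surjective S M) x)
  map_add' x y := by
    rw [← map_add]
    apply δ_eq_of_toH1loc_eq
    rw [map_add]
    simp only [Function.surjInv_eq]
  map_smul' c x := by
    rw [RingHom.id_apply, ← map_smul]
    apply δ_eq_of_toH1loc_eq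
    rw [map_smul]
    simp only [Function.surjInv_eq]

@[simp] lemma δH_toH1loc (b : Z1loc S M) : δH S M (toH1loc S M b) = δ S M b := by
  change δ S M (Function.surjInv (toH1loc_surjective S M) (toH1loc S M b)) = δ S M b
  apply δ_eq_of_toH1loc_eq
  simp only [Function.surjInv_eq]

lemma range_δH : LinearMap.range (δH S M) = LinearMap.range (δ S M) := by
  apply le_antisymm
  · rintro _ ⟨x, rfl⟩
    obtain ⟨b, rfl⟩ := toH1loc_surjective S M x
    exact ⟨b, (δH_toH1loc S M b).symm⟩
  · rintro _ ⟨b, rfl⟩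
    exact ⟨toH1loc S M b, δH_toH1loc S M b⟩

/-- **Exactness at `H²_c` in terms of classes**: `ker j = range δH`. -/
theorem ker_j_eq_range_δH : LinearMap.ker (j S M) = LinearMap.range (δH S M) := by
  rw [ker_j, range_δH]


/-! ### Localisation maps on `H¹(G_S, A)` -/

section loc

variable {K : Type} [Field K] (A : Rep K GQ)

lemma locRes_mem_continuousH1 (q : ↥S) {x : H1 A} (hx : x ∈ continuousH1S S A) :
    (locRes (extArithLoc S) A (Sum.inr q)).hom x ∈
      continuousH1 (primeLocalToGlobal q.1) (Rep.res (primeLocalToGlobal q.1) A) := by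
  obtain ⟨c, hc, rfl⟩ := (mem_continuousH1S_iff S A x).1 hx
  have h : (locRes (extArithLoc S) A (Sum.inr q)).hom ((H1π A).hom c) =
      (H1π (Rep.res (primeLocalToGlobal q.1) A)).hom
        ((mapCocycles₁ (primeLocalToGlobal q.1) (𝟙 (Rep.res (primeLocalToGlobal q.1) A))).hom c) :=
    H1π_comp_map_apply (primeLocalToGlobal q.1) (𝟙 (Rep.res (primeLocalToGlobal q.1) A)) c
  rw [h]
  refine H1π_mem_continuousH1 _ _ ?_
  have hc' : IsLevelConstant₁ (MonoidHom.id GQ) (c : GQ → A) := hc.isLevelConstant₁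
  exact IsLevelConstant₁.precomp (rH := MonoidHom.id GQ) (primeLocalToGlobal q.1) (fun _ => rfl) hc'

/-- Localisation at `q ∈ S` on the Prelude carriers of continuous `H¹`. -/
def locH (q : ↥S) : ↥(continuousH1S S A) →ₗ[K]
    ↥(continuousH1 (primeLocalToGlobal q.1) (Rep.res (primeLocalToGlobal q.1) A)) :=
  LinearMap.codRestrict _
    ((locRes (extArithLoc S) A (Sum.inr q)).hom ∘ₗ (continuousH1S S A).subtype)
    (fun x => locRes_mem_continuousH1 S A q x.2)

@[simp] lemma coe_locH (q : ↥S) (x : ↥(continuousH1S S A)) :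
    ((locH S A q x : ↥(continuousH1 (primeLocalToGlobal q.1) (Rep.res (primeLocalToGlobal q.1) A))) :
      H1 (Rep.res (primeLocalToGlobal q.1) A)) =
      (locRes (extArithLoc S) A (Sum.inr q)).hom (x : H1 A) := rfl

/-- Total localisation `H¹(G_S, A) → ∏_{q ∈ S} H¹(G_q, A)`. -/
def locHtot : ↥(continuousH1S S A) →ₗ[K] H1loc S A := LinearMap.pi (locH S A)

@[simp] lemma locHtot_apply (x : ↥(continuousH1S S A)) (q : ↥S) : locHtot S A x q = locH S A q x := rfl

/-- `Ш¹` is the kernel of the total localisation at the finite places of `S` (for `p` odd). -/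
theorem mem_sha₁_iff_locHtot {p : ℕ} [Fact p.Prime] (hp2 : p ≠ 2) (S : Finset Nat.Primes)
    (A : Rep (ZMod p) GQ) (x : ↥(continuousH1S S A)) :
    (x : H1 A) ∈ sha₁ S A ↔ locHtot S A x = 0 := by
  rw [ProfinLocal31.Sha.mem_sha₁_iff S hp2]
  constructor
  · rintro ⟨_, h⟩
    funext q
    apply Subtype.ext
    exact h q
  · intro h
    refine ⟨x.2, fun q => ?_⟩
    have := congrArg Subtype.val (congrFun h q)
    exact this

end loc

end Fermat.Agent.S55.Cone41
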