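/-
S55 / 41b-CONE (helper41), part 3: the Poitou–Tate assembly.  From a global duality pairing
`GD : H²_c(G_S, M) × H¹(G_S, M') → k`, local pairings `LD_q : H¹(G_q, M) × H¹(G_q, M') → k`
and the adjunction `GD (δ b) x = ∑_q LD_q (b_q) (loc_q x)`, deduce
`dim Ш¹(M') = dim Ш²(M)` (both finite), in the Prelude shapes.
-/
import Fermat.Agent.S55.Cone41.Local
import Fermat.Agent.S55.Spine15

set_option autoImplicit false

open CategoryTheory groupCohomology ExtCitation Module

noncomputable section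

namespace Fermat.Agent.S55.Cone41

/-! ### Abstract linear algebra -/

section abstract

variable {K : Type*} [Field K] {V W X : Type*} [AddCommGroup V] [Module K V]
  [AddCommGroup W] [Module K W] [AddCommGroup X] [Module K X]

/-- Core: if `GD` induces a two-sided nondegenerate pairing between `V / ker jj` and `W₀`,
then `range jj` and `W₀` have the same finite dimension. -/
theorem core (jj : V →ₗ[K] X) (W₀ : Submodule K W) (GD : V →ₗ[K] W →ₗ[K] K)
    (h1 : ∀ x ∈ W₀, (∀ v, GD v x = 0) → x = 0)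
    (h2 : ∀ v, (∀ x ∈ W₀, GD v x = 0) → v ∈ LinearMap.ker jj)
    (h3 : ∀ v ∈ LinearMap.ker jj, ∀ x ∈ W₀, GD v x = 0)
    [FiniteDimensional K W₀] :
    FiniteDimensional K (LinearMap.range jj) ∧
      finrank K W₀ = finrank K (LinearMap.range jj) := by
  classical
  -- the pairing restricted to `W₀`
  let GD₀ : V →ₗ[K] Dual K W₀ := (LinearMap.lcomp K K W₀.subtype) ∘ₗ GD
  have hGD₀ : ∀ v (x : W₀), GD₀ v x = GD v x := fun v x => rfl
  have hker : LinearMap.ker GD₀ = LinearMap.ker jj := by
    ext v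
    constructor
    · intro hv
      exact h2 v fun x hx => by
        have := LinearMap.congr_fun (LinearMap.mem_ker.1 hv) ⟨x, hx⟩
        exact this
    · intro hv
      rw [LinearMap.mem_ker]
      ext ⟨x, hx⟩
      exact h3 v hv x hx
  -- `range jj ≃ V / ker jj = V / ker GD₀ ≃ range GD₀ ⊆ Dual W₀`
  have e1 : (V ⧸ LinearMap.ker jj) ≃ₗ[K] LinearMap.range jj := jj.quotKerEquivRange
  have e2 : (V ⧸ LinearMap.ker GD₀) ≃ₗ[K] LinearMap.range GD₀ := GD₀.quotKerEquivRange
  have e3 : (V ⧸ LinearMap.ker GD₀) ≃ₗ[K] (V ⧸ LinearMap.ker jj) :=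
    Submodule.quotEquivOfEq _ _ hker
  have e : LinearMap.range jj ≃ₗ[K] LinearMap.range GD₀ := e1.symm ≪≫ₗ e3.symm ≪≫ₗ e2
  have hfin : FiniteDimensional K (LinearMap.range jj) := Module.Finite.equiv e.symm
  refine ⟨hfin, ?_⟩
  -- `range GD₀ = ⊤` because its dual annihilator (in `W₀`) is trivial
  have htop : LinearMap.range GD₀ = ⊤ := by
    by_contra hne
    obtain ⟨φ, hφ0, hφ⟩ := Submodule.exists_dual_map_eq_bot_of_lt_top (lt_top_iff_ne_top.2 hne)
      inferInstance
    -- `φ` is evaluation at some `x : W₀`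
    obtain ⟨x, rfl⟩ := (Module.evalEquiv K W₀).surjective φ
    apply hφ0
    have hx : (x : W) = 0 := h1 x x.2 fun v => by
      have hmem : GD₀ v ∈ LinearMap.range GD₀ := ⟨v, rfl⟩
      have : Module.evalEquiv K W₀ x (GD₀ v) ∈ (LinearMap.range GD₀).map (Module.evalEquiv K W₀ x) :=
        Submodule.mem_map_of_mem hmem
      rw [hφ, Submodule.mem_bot] at this
      rw [← hGD₀ v x]
      simpa using this
    have : x = 0 := Subtype.ext hx
    rw [this, map_zero]
  rw [e.finrank_eq, htop, finrank_top, Subspace.dual_finrank_eq]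

variable {P P' : Type*} [AddCommGroup P] [Module K P] [AddCommGroup P'] [Module K P']

/-- The Poitou–Tate assembly in abstract form. -/
theorem core_of_adjunction (jj : V →ₗ[K] X) (dd : P →ₗ[K] V)
    (hex : LinearMap.ker jj = LinearMap.range dd) (lam : W →ₗ[K] P')
    (GD : V →ₗ[K] W →ₗ[K] K) (LD : P →ₗ[K] P' →ₗ[K] K)
    (hGDl : ∀ v, (∀ x, GD v x = 0) → v = 0) (hGDr : ∀ x, (∀ v, GD v x = 0) → x = 0)
    (hLD : ∀ y, (∀ b, LD b y = 0) → y = 0)
    (hADJ : ∀ b x, GD (dd b) x = LD b (lam x))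
    [FiniteDimensional K W] [FiniteDimensional K P'] :
    FiniteDimensional K (LinearMap.range jj) ∧
      finrank K (LinearMap.ker lam) = finrank K (LinearMap.range jj) := by
  refine core jj (LinearMap.ker lam) GD (fun x _ hx => hGDr x hx) ?_ ?_
  · intro v hv
    -- `GD v` vanishes on `ker lam`, hence is `φ ∘ lam`
    have h1 : GD v ∈ (LinearMap.ker lam).dualAnnihilator := by
      rw [Submodule.mem_dualAnnihilator]
      exact hv
    rw [← LinearMap.range_dualMap_eq_dualAnnihilator_ker] at h1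
    obtain ⟨φ, hφ⟩ := h1
    -- `φ = LD b`
    have hsurj : Function.Surjective LD := by
      rw [← LinearMap.flip_injective_iff₂]
      intro y y' hyy'
      rw [← sub_eq_zero]
      apply hLD
      intro b
      have := LinearMap.congr_fun hyy' b
      simp only [LinearMap.flip_apply] at this
      rw [map_sub, this, sub_self]
    obtain ⟨b, rfl⟩ := hsurj φ
    have hv' : v = dd b := by
      rw [← sub_eq_zero]
      apply hGDl
      intro x
      rw [map_sub, LinearMap.sub_apply, hADJ, ← hφ, sub_eq_zero]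
      rfl
    rw [hex, hv']
    exact ⟨b, rfl⟩
  · intro v hv x hx
    rw [hex] at hv
    obtain ⟨b, rfl⟩ := hv
    rw [hADJ, LinearMap.mem_ker.1 hx, map_zero]

end abstract


/-! ### The assembly in the Prelude shapes -/

section concrete

variable {p : ℕ} [Fact p.Prime] (S : Finset Nat.Primes) (M M' : Rep (ZMod p) GQ)

/-- The sum of the local pairings. -/
def LDtot
    (LD : ∀ q : ↥S,
      ↥(continuousH1 (primeLocalToGlobal q.1) (Rep.res (primeLocalToGlobal q.1) M)) →ₗ[ZMod p]
      ↥(continuousH1 (primeLocalToGlobal q.1) (Rep.res (primeLocalToGlobal q.1) M')) →ₗ[ZMod p]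
        ZMod p) :
    H1loc S M →ₗ[ZMod p] H1loc S M' →ₗ[ZMod p] ZMod p :=
  ∑ q, (LD q).compl₁₂ (LinearMap.proj q) (LinearMap.proj q)

lemma LDtot_apply
    (LD : ∀ q : ↥S,
      ↥(continuousH1 (primeLocalToGlobal q.1) (Rep.res (primeLocalToGlobal q.1) M)) →ₗ[ZMod p]
      ↥(continuousH1 (primeLocalToGlobal q.1) (Rep.res (primeLocalToGlobal q.1) M')) →ₗ[ZMod p]
        ZMod p) (b : H1loc S M) (y : H1loc S M') :
    LDtot S M M' LD b y = ∑ q, LD q (b q) (y q) := by
  simp only [LDtot, LinearMap.sum_apply, LinearMap.compl₁₂_apply, LinearMap.proj_apply]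

/-- **The duality plug** (global duality in degree `(2,1)` for the cone, local duality in degree
`(1,1)`, and their adjunction).  `M'` is meant to be `M.dualTwist (cycloChar p)`. -/
def HasDuality : Prop :=
  ∃ (GD : H2c S M →ₗ[ZMod p] ↥(continuousH1S S M') →ₗ[ZMod p] ZMod p)
    (LD : ∀ q : ↥S,
      ↥(continuousH1 (primeLocalToGlobal q.1) (Rep.res (primeLocalToGlobal q.1) M)) →ₗ[ZMod p]
      ↥(continuousH1 (primeLocalToGlobal q.1) (Rep.res (primeLocalToGlobal q.1) M')) →ₗ[ZMod p]
        ZMod p),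
    (∀ v, (∀ x, GD v x = 0) → v = 0) ∧ (∀ x, (∀ v, GD v x = 0) → x = 0) ∧
    (∀ q y, (∀ b, LD q b y = 0) → y = 0) ∧
    (∀ b x, GD (δH S M b) x = ∑ q, LD q (b q) (locH S M' q x))

/-- **Poitou–Tate assembly**: the duality plug plus finiteness of the global and local `H¹` of
`M'` give `dim Ш¹(M') = dim Ш²(M)`, both finite. -/
theorem finrank_sha_eq_of_hasDuality (hp2 : p ≠ 2) (h : HasDuality S M M')
    [FiniteDimensional (ZMod p) ↥(continuousH1S S M')]
    [∀ q : ↥S, FiniteDimensional (ZMod p)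
      ↥(continuousH1 (primeLocalToGlobal q.1) (Rep.res (primeLocalToGlobal q.1) M'))] :
    FiniteDimensional (ZMod p) (sha₁ S M') ∧ FiniteDimensional (ZMod p) (sha₂ S M) ∧
      finrank (ZMod p) (sha₁ S M') = finrank (ZMod p) (sha₂ S M) := by
  classical
  obtain ⟨GD, LD, hGDl, hGDr, hLD, hADJ⟩ := h
  have hLD' : ∀ y : H1loc S M', (∀ b, LDtot S M M' LD b y = 0) → y = 0 := by
    intro y hy
    funext q
    apply hLD q
    intro bq
    have := hy (Pi.single q bq)
    rw [LDtot_apply, Finset.sum_eq_single q] at this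
    · simpa using this
    · intro q' _ hq'
      rw [Pi.single_eq_of_ne hq', map_zero, LinearMap.zero_apply]
    · intro hq
      exact absurd (Finset.mem_univ q) hq
  have hADJ' : ∀ b x, GD (δH S M b) x = LDtot S M M' LD b (locHtot S M' x) := by
    intro b x
    rw [hADJ, LDtot_apply]
    rfl
  obtain ⟨hfin, hrank⟩ := core_of_adjunction (j S M) (δH S M) (ker_j_eq_range_δH S M)
    (locHtot S M') GD (LDtot S M M' LD) hGDl hGDr hLD' hADJ'
  rw [range_j_eq_sha₂ hp2 S M] at hfin hrank
  -- `sha₁ S M'` is the image of `ker locHtot` under the (injective) subtype map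
  have hsha : sha₁ S M' = (LinearMap.ker (locHtot S M')).map (continuousH1S S M').subtype := by
    ext x
    constructor
    · intro hx
      have hx1 : x ∈ continuousH1S S M' := ((ProfinLocal31.Sha.mem_sha₁_iff S hp2 M' x).1 hx).1
      refine ⟨⟨x, hx1⟩, ?_, rfl⟩
      rw [SetLike.mem_coe, LinearMap.mem_ker, ← mem_sha₁_iff_locHtot hp2 S M']
      exact hx
    · rintro ⟨y, hy, rfl⟩
      rw [SetLike.mem_coe, LinearMap.mem_ker, ← mem_sha₁_iff_locHtot hp2 S M'] at hy
      exact hy
  have e : LinearMap.ker (locHtot S M') ≃ₗ[ZMod p] sha₁ S M' :=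
    (Submodule.equivMapOfInjective (continuousH1S S M').subtype
      (continuousH1S S M').injective_subtype (LinearMap.ker (locHtot S M'))).trans
      (LinearEquiv.ofEq _ _ hsha.symm)
  have hfin1 : FiniteDimensional (ZMod p) (sha₁ S M') := Module.Finite.equiv e
  exact ⟨hfin1, hfin, by rw [← e.finrank_eq, hrank]⟩

end concrete

/-! ### The plug of the S55 spine -/

/-- **The Poitou–Tate plug**: for every `M` as in S55, the duality plug for `(M, M*(1))` together
with finiteness of the global and local `H¹` of `M*(1)`. -/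
def PTPlug : Prop :=
  ∀ {p : ℕ} [Fact p.Prime], p ≠ 2 → ∀ (S : Finset Nat.Primes), pPrime p ∈ S →
    ∀ (M : Rep (ZMod p) GQ) [FiniteDimensional (ZMod p) M],
      (∀ m : M, ∃ F : IntermediateField ℚ (AlgebraicClosure ℚ), FiniteDimensional ℚ F ∧
        ∀ s ∈ F.fixingSubgroup, M.ρ s m = m) →
      (∀ q : Nat.Primes, q ∉ S → ∀ A : ValuationSubring (AlgebraicClosure ℚ),
        A.LiesOverPrime (q : ℕ) → ∀ g ∈ A.inertiaSubgroupIn ℚ, M.ρ g = 1) →
      HasDuality S M (M.dualTwist (cycloChar p)) ∧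
      FiniteDimensional (ZMod p) ↥(continuousH1S S (M.dualTwist (cycloChar p))) ∧
      ∀ q : ↥S, FiniteDimensional (ZMod p)
        ↥(continuousH1 (primeLocalToGlobal q.1)
          (Rep.res (primeLocalToGlobal q.1) (M.dualTwist (cycloChar p))))

theorem dimStatement_of_PTPlug (H : PTPlug) : Spine15.DimStatement := by
  intro p _ hp2 S hpS M _ hsm hMur
  obtain ⟨hdual, hfin, hfinloc⟩ := H hp2 S hpS M hsm hMur
  exact finrank_sha_eq_of_hasDuality S M (M.dualTwist (cycloChar p)) hp2 hdual

end Fermat.Agent.S55.Cone41
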